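/-
S24 export (owner helper144): ramification of `FN N = ℚ̄(X₀(N))` over `ℚ̄(j)` in characteristic zero.
Every place over `j = c` (`c ≠ 0, 1728`) is unramified, ramification indices divide `2` over
`j = 1728`, divide `3` over `j = 0` and divide `N` over `j = ∞`.
Not in the closure of `Fermat/Agent/S24.lean`; for reuse by other projects.
-/
import Fermat.Agent.S24.CL.Complete
import Fermat.Agent.S24.Formal
import Fermat.Agent.S24.B.Main

set_option autoImplicit false

namespace Fermat.Agent.S24.Export

open AlgebraicCurve IntermediateField FF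
open scoped WithZero MatrixGroups

section Abstract

variable {K F L G : Type*} [Field K] [Field F] [Algebra K F] [Field L] [Algebra K L]
  [Group G] [MulSemiringAction G L]
variable {x y : F} {H : Subgroup G} {Ψ : F →ₐ[K] L} {V : Valuation L ℤᵐ⁰} {δ : G} {E : ℕ}
variable [IsAlgClosed K] [CharZero K] [H.FiniteIndex]

/-- Abstract form: the ramification index of a place over the point `y = 0` divides `E`. -/
theorem ord_dvd_of_isPointDatum (hx : Transcendental K x) (hU : IsUniformization x H Ψ)
    [FiniteDimensional K⟮x⟯ F] (hy : K⟮y⟯ = K⟮x⟯) (hP : IsPointDatum Ψ y V δ E)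
    (v : Place K F) (hv : 0 < v.ord y) : v.ord y ∣ (E : ℤ) := by
  obtain ⟨q, rfl⟩ := CL.exists_conjPlace_eq hx hU hy hP v hv
  obtain ⟨m, -, h⟩ := CL.exists_mul_ord_conjPlace hU hy hP q
  have h1 := h y (CL.y_ne_zero hP)
  rw [← CL.conjVal_apply, CL.conjVal_y hU hy hP, WithZero.exp_inj] at h1
  exact ⟨m, by linarith⟩

end Abstract

section Modular

variable (N : ℕ) [NeZero N]

theorem adjoin_sub_const {K F : Type*} [Field K] [Field F] [Algebra K F] (x : F) (c : K) :
    K⟮x - algebraMap K F c⟯ = K⟮x⟯ := by
  apply le_antisymm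
  · rw [adjoin_simple_le_iff]
    exact sub_mem (mem_adjoin_simple_self K x) (IntermediateField.algebraMap_mem _ c)
  · rw [adjoin_simple_le_iff]
    have h := add_mem (mem_adjoin_simple_self K (x - algebraMap K F c))
      (IntermediateField.algebraMap_mem K⟮x - algebraMap K F c⟯ c)
    rwa [sub_add_cancel] at h

theorem adjoin_inv {K F : Type*} [Field K] [Field F] [Algebra K F] (x : F) :
    K⟮x⁻¹⟯ = K⟮x⟯ := by
  apply le_antisymm
  · rw [adjoin_simple_le_iff]
    exact inv_mem (mem_adjoin_simple_self K x)
  · rw [adjoin_simple_le_iff]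
    have h := inv_mem (mem_adjoin_simple_self K x⁻¹)
    rwa [inv_inv] at h

/-- `FN N` is finite over `ℚ̄(j)`. -/
theorem finiteDimensional : FiniteDimensional Kbar⟮jF N⟯ (FN N) := by
  obtain ⟨U⟩ := B.nonempty_uniformization N
  exact CL.finiteDimensional_of_isUniformization U.isUniformization
    (Formal.exists_finset_adjoin_eq_top N)

/-- `[FN N : ℚ̄(j)] = [SL₂(ℤ) : Γ₀(N)]`. -/
theorem finrank_eq_index :
    Module.finrank Kbar⟮jF N⟯ (FN N) = (CongruenceSubgroup.Gamma0 N).index := by
  obtain ⟨U⟩ := B.nonempty_uniformization N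
  have := finiteDimensional N
  exact CL.finrank_eq_index' U.isUniformization

/-- `FN N` is a function field in one variable over `ℚ̄`. -/
theorem isFF1 : IsFF1 Kbar (FN N) := by
  have := finiteDimensional N
  exact IsFF1.of_exists (jF N)

/-- unramified over `j = c`, `c ≠ 0, 1728`. -/
theorem ord_jF_sub_eq_one (c : Kbar) (h0 : c ≠ 0) (h1 : c ≠ 1728) (v : Place Kbar (FN N))
    (hv : 0 < v.ord (jF N - algebraMap Kbar (FN N) c)) :
    v.ord (jF N - algebraMap Kbar (FN N) c) = 1 := by
  obtain ⟨U⟩ := B.nonempty_uniformization N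
  have := finiteDimensional N
  obtain ⟨V, hV⟩ := U.generic c h0 h1
  have h := ord_dvd_of_isPointDatum (Formal.transcendental_jF N) U.isUniformization
    (adjoin_sub_const _ _) hV v hv
  have h2 := Int.le_of_dvd one_pos (by simpa using h)
  omega

/-- ramification index `1` or `2` over `j = 1728`. -/
theorem ord_jF_sub_1728_dvd (v : Place Kbar (FN N))
    (hv : 0 < v.ord (jF N - algebraMap Kbar (FN N) 1728)) :
    v.ord (jF N - algebraMap Kbar (FN N) 1728) ∣ 2 := by
  obtain ⟨U⟩ := B.nonempty_uniformization N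
  have := finiteDimensional N
  obtain ⟨V, hV⟩ := U.atI
  exact ord_dvd_of_isPointDatum (Formal.transcendental_jF N) U.isUniformization
    (adjoin_sub_const _ _) hV v hv

/-- ramification index `1` or `3` over `j = 0`. -/
theorem ord_jF_dvd (v : Place Kbar (FN N)) (hv : 0 < v.ord (jF N)) : v.ord (jF N) ∣ 3 := by
  obtain ⟨U⟩ := B.nonempty_uniformization N
  have := finiteDimensional N
  obtain ⟨V, hV⟩ := U.atRho
  have h := ord_dvd_of_isPointDatum (Formal.transcendental_jF N) U.isUniformization
    (adjoin_sub_const _ _) hV v (by simpa using hv)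
  simpa using h

/-- the ramification index over `j = ∞` divides `N`. -/
theorem ord_jF_dvd_of_neg (v : Place Kbar (FN N)) (hv : v.ord (jF N) < 0) :
    v.ord (jF N) ∣ (N : ℤ) := by
  obtain ⟨U⟩ := B.nonempty_uniformization N
  have := finiteDimensional N
  obtain ⟨V, hV⟩ := U.atInfty
  have h := ord_dvd_of_isPointDatum (Formal.transcendental_jF N) U.isUniformization
    (adjoin_inv _) hV v (by rw [Place.ord_inv]; omega)
  rw [Place.ord_inv] at h
  exact (neg_dvd).1 h

end Modular

end Fermat.Agent.S24.Export
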